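import Fermat.Agent.TL.Main
import Fermat.Agent.E2K.Main

/-!
# Surjectivity of the specialization on `m`-torsion classes
-/

set_option autoImplicit false
set_option linter.unusedSectionVars false
set_option linter.style.haveILetI false

open scoped MatrixGroups

noncomputable section

namespace Fermat.Agent.TL

open Fermat.Agent.SSH Fermat.Agent.E2K Fermat.Agent.Nod Fermat.Agent.RedMod Fermat.Agent.Cov
  Fermat.Agent.Places
  AlgebraicCurve

local notation "Qb" => AlgebraicClosure ℚ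

section gen

variable {A : ValuationSubring Qb} {k : Type} [Field k] [IsAlgClosed k] [Algebra A k]
  {q : ℕ} [hq : Fact q.Prime] [CharP k q] [PerfectRing k q] {M m : ℕ} [NeZero M] [NeZero m]
  {H : Subgroup (ZMod M)ˣ} [hH : Fact ((-1 : (ZMod M)ˣ) ∈ H)]

theorem surjSpz_gen (s : Setting A Qb k q M H) {R : RedAut A Qb k} (hRb : R.σb = frobeniusEquiv k q)
    {φ : Qb ≃ₐ[ℚ] Qb} (hR : R.σ = (φ : Qb ≃+* Qb)) (hm : (m : k) ≠ 0) : SurjSpz s m := by
  intro α hα hd
  obtain ⟨η, a, α', β, h1, h2, -, h3, h4⟩ :=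
    exists_lift_class s.hk s.hA s.hrank hRb hR s.hM hm s.hM3 s.ι α hα hd
  exact ⟨η, a, α', β, h1, h2, h3, h4⟩

end gen

variable {A : ValuationSubring Qb} {q : ℕ} [hq : Fact q.Prime] {M m : ℕ} [NeZero M] [NeZero m]
  {H : Subgroup (ZMod M)ˣ} [hH : Fact ((-1 : (ZMod M)ˣ) ∈ H)]

/-- **Surjectivity of the specialization on `m`-torsion classes.** -/
theorem surjSpz (hA : A.LiesOverPrime q) (hqM : ¬ q ∣ M) (hqm : ¬ q ∣ m) (hM3 : 3 ≤ M)
    (D : WData q M H) (ι : Qb →+* ℂ) : SurjSpz (qset hA hqM hM3 D ι) m := by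
  haveI : CharP (IsLocalRing.ResidueField A) q := RedMod.charP_residue hA
  haveI : IsAlgClosed (IsLocalRing.ResidueField A) := inferInstance
  haveI : PerfectRing (IsLocalRing.ResidueField A) q := inferInstance
  obtain ⟨φ, hφ⟩ := exists_isFrobeniusAt A hq.out hA
  obtain ⟨R, hR, hRb⟩ := exists_decAut_frob hφ
  exact surjSpz_gen (qset hA hqM hM3 D ι) hRb hR (natCast_residue_ne_zero hA hqm)

end Fermat.Agent.TL
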