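import Mathlib

/-!
# Lifting of torsion: the abstract argument
-/

set_option autoImplicit false
set_option linter.unusedSectionVars false
set_option linter.style.haveILetI false

namespace Fermat.Agent.TL

theorem dvd_pow_self_of_dvd_pow {g m n : ℕ} (hm : m ≠ 0) (h : g ∣ m ^ n) : g ∣ m ^ g := by
  have hg : g ≠ 0 := by
    rintro rfl
    exact pow_ne_zero n hm (zero_dvd_iff.1 h)
  rw [← Nat.factorization_le_iff_dvd hg (pow_ne_zero _ hm)]
  intro p
  rw [Nat.factorization_pow, Finsupp.smul_apply, smul_eq_mul]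
  by_cases h0 : g.factorization p = 0
  · rw [h0]; exact Nat.zero_le _
  · have hp : p.Prime := by
      by_contra hp
      exact h0 (Nat.factorization_eq_zero_of_not_prime g hp)
    have hpg : p ∣ g := Nat.dvd_of_factorization_pos h0
    have hpm : p ∣ m := hp.dvd_of_dvd_pow (hpg.trans h)
    have h1 : 1 ≤ m.factorization p := (hp.dvd_iff_one_le_factorization hm).1 hpm
    have h2 : g.factorization p < g := Nat.factorization_lt p hg
    calc g.factorization p ≤ g := h2.le
      _ = g * 1 := (mul_one g).symm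
      _ ≤ g * m.factorization p := Nat.mul_le_mul_left g h1

theorem dvd_pow_of_dvd_pow_of_le {g m n b : ℕ} (hm : m ≠ 0) (h : g ∣ m ^ n) (hb : g ≤ b) :
    g ∣ m ^ b :=
  (dvd_pow_self_of_dvd_pow hm h).trans (pow_dvd_pow m hb)

section

variable {J : Type*} [AddCommGroup J]

/-- the torsion subgroup -/
def tors (J : Type*) [AddCommGroup J] (n : ℕ) : AddSubgroup J := (nsmulAddMonoidHom (α := J) n).ker

theorem mem_tors {n : ℕ} {x : J} : x ∈ tors J n ↔ n • x = 0 := Iff.rfl

/-- the restriction of an endomorphism to the torsion -/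
def tmap (f : J →+ J) (n : ℕ) : tors J n →+ tors J n :=
  (f.comp (tors J n).subtype).codRestrict (tors J n) fun x => by
    rw [mem_tors]
    change n • f (x : J) = 0
    rw [← map_nsmul, mem_tors.1 x.2, map_zero]

theorem coe_tmap (f : J →+ J) (n : ℕ) (x : tors J n) : (tmap f n x : J) = f x := rfl

/-- in a finite group the cokernel of an endomorphism has the same order as its kernel -/
theorem index_range_eq {T : Type*} [AddCommGroup T] [Finite T] (f : T →+ T) :
    f.range.index = Nat.card f.ker := by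
  have h1 := f.range.card_mul_index
  have h2 := f.ker.card_mul_index
  rw [AddSubgroup.index_ker] at h2
  have h4 : 0 < Nat.card f.range := Nat.card_pos
  have h5 : Nat.card f.range * f.range.index = Nat.card f.range * Nat.card f.ker := by
    rw [h1, ← h2, mul_comm]
  exact Nat.eq_of_mul_eq_mul_left h4 h5

theorem nsmul_mem_range {T : Type*} [AddCommGroup T] [Finite T] (f : T →+ T) {m n b : ℕ}
    (hm : m ≠ 0) (hT : ∀ t : T, m ^ n • t = 0) (hb : Nat.card f.ker ≤ b) (t : T) :
    m ^ b • t ∈ f.range := by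
  have h1 : f.range.index • t ∈ f.range := by
    have := (QuotientAddGroup.eq_zero_iff (N := f.range) (f.range.index • t)).1 (by
      have h2 : Nat.card (T ⧸ f.range) • (t : T ⧸ f.range) = 0 := card_nsmul_eq_zero'
      exact h2)
    exact this
  have h2 : m ^ n • t ∈ f.range := by rw [hT]; exact zero_mem _
  set g := Nat.gcd f.range.index (m ^ n) with hg
  have h3 : g • t ∈ f.range := by
    have e1 : ((g : ℕ) : ℤ) • t = (f.range.index : ℤ) • (Nat.gcdA f.range.index (m ^ n)) • t +
        ((m ^ n : ℕ) : ℤ) • (Nat.gcdB f.range.index (m ^ n)) • t := by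
      rw [hg, Nat.gcd_eq_gcd_ab, add_smul, mul_smul, mul_smul]
    rw [← natCast_zsmul, e1]
    refine add_mem ?_ ?_
    · rw [smul_comm]
      refine AddSubgroup.zsmul_mem _ ?_ _
      rw [natCast_zsmul]
      exact h1
    · rw [smul_comm]
      refine AddSubgroup.zsmul_mem _ ?_ _
      rw [natCast_zsmul]
      exact h2
  have h4 : g ≤ b := by
    refine (Nat.le_of_dvd ?_ (Nat.gcd_dvd_left _ _)).trans ?_
    · rw [index_range_eq]; exact Nat.card_pos
    · rw [index_range_eq]; exact hb
  obtain ⟨c, hc⟩ := dvd_pow_of_dvd_pow_of_le hm (Nat.gcd_dvd_right f.range.index (m ^ n)) h4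
  rw [hc, mul_comm, mul_smul]
  exact AddSubgroup.nsmul_mem _ h3 c

variable {J' : Type*} [AddCommGroup J']

/-- **Lifting of torsion points.** -/
theorem exists_lift_torsion {m : ℕ} (hm : m ≠ 0) (sp : J →+ J') (hsurj : Function.Surjective sp)
    (hdiv : ∀ (n : ℕ) (x : J), ∃ y, m ^ n • y = x)
    (hfin : ∀ n : ℕ, Finite (tors J (m ^ n)))
    (hinj : ∀ (n : ℕ) (x : J), m ^ n • x = 0 → sp x = 0 → x = 0)
    (hσ : ∀ x : J, ∃ (σ : J →+ J) (Φ : J' →+ J'), σ x = x ∧ (∀ y, sp (σ y) = Φ (sp y)) ∧
      {b : J' | Φ b = b}.Finite)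
    (z : J') (hz : m • z = 0) : ∃ x : J, m • x = 0 ∧ sp x = z := by
  classical
  obtain ⟨x, rfl⟩ := hsurj z
  obtain ⟨σ, Φ, hσx, hcomm, hB⟩ := hσ x
  -- a common exponent of the torsion of the fixed points
  obtain ⟨N, hN⟩ : ∃ N : ℕ, ∀ b : J', Φ b = b → (∃ n, m ^ n • b = 0) → m ^ N • b = 0 := by
    have : ∀ b ∈ hB.toFinset, ∃ n : ℕ, (∃ n, m ^ n • b = 0) → m ^ n • b = 0 := by
      intro b _
      by_cases h : ∃ n, m ^ n • b = 0
      · obtain ⟨n, hn⟩ := h
        exact ⟨n, fun _ => hn⟩
      · exact ⟨0, fun h' => absurd h' h⟩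
    choose! f hf using this
    refine ⟨hB.toFinset.sup f, fun b hb h => ?_⟩
    have hb' : b ∈ hB.toFinset := hB.mem_toFinset.2 hb
    obtain ⟨c, hc⟩ := Nat.exists_eq_add_of_le (Finset.le_sup (f := f) hb')
    rw [hc, pow_add, mul_comm, mul_smul, hf b hb' h, smul_zero]
  -- a bound for the kernels
  obtain ⟨β, hβ⟩ : ∃ β, β = Nat.card {b : J' | Φ b = b} := ⟨_, rfl⟩
  have hker : ∀ n, Nat.card (tmap (σ - AddMonoidHom.id J) (m ^ n)).ker ≤ β := by
    intro n
    haveI := hfin n
    haveI : Finite {b : J' | Φ b = b} := hB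
    rw [hβ]
    refine Nat.card_le_card_of_injective
      (fun y : (tmap (σ - AddMonoidHom.id J) (m ^ n)).ker =>
        (⟨sp (y : tors J (m ^ n)), ?_⟩ : {b : J' | Φ b = b})) ?_
    · have h1 := y.2
      rw [AddMonoidHom.mem_ker] at h1
      have h2 : σ ((y : tors J (m ^ n)) : J) - (y : tors J (m ^ n)) = 0 :=
        congrArg (fun t : tors J (m ^ n) => (t : J)) h1
      change Φ _ = _
      rw [← hcomm, sub_eq_zero.1 h2]
    · intro y y' h
      have h1 : sp ((y : tors J (m ^ n)) : J) = sp ((y' : tors J (m ^ n)) : J) :=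
        congrArg Subtype.val h
      apply Subtype.ext
      apply Subtype.ext
      rw [← sub_eq_zero]
      refine hinj n _ ?_ ?_
      · rw [smul_sub]
        have e1 := mem_tors.1 (y : tors J (m ^ n)).2
        have e2 := mem_tors.1 (y' : tors J (m ^ n)).2
        rw [e1, e2, sub_zero]
      · rw [map_sub, h1, sub_self]
  -- the key point
  have hkey : ∀ (n : ℕ) (t : J), m ^ n • t = 0 → ∃ w : J, m ^ (n + β) • w = 0 ∧ σ w - w = t := by
    intro n t ht
    obtain ⟨s, rfl⟩ := hdiv β t
    have hs : s ∈ tors J (m ^ (n + β)) := by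
      rw [mem_tors, pow_add, mul_smul]
      exact ht
    haveI := hfin (n + β)
    obtain ⟨w, hw⟩ := nsmul_mem_range (tmap (σ - AddMonoidHom.id J) (m ^ (n + β))) hm
      (n := n + β) (b := β) (fun t => Subtype.ext (mem_tors.1 t.2)) (hker _) ⟨s, hs⟩
    refine ⟨w, mem_tors.1 w.2, ?_⟩
    exact congrArg (fun t : tors J (m ^ (n + β)) => (t : J)) hw
  obtain ⟨y, hy⟩ := hdiv N x
  obtain ⟨w, hw, hw'⟩ := hkey N (σ y - y) (by
    rw [smul_sub, ← map_nsmul, hy, hσx, sub_self])
  have hu : σ (y - w) = y - w := by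
    rw [map_sub]
    have : σ y - σ w - (y - w) = (σ y - y) - (σ w - w) := by abel
    rw [← sub_eq_zero, this, hw', sub_self]
  have h1 : m ^ N • sp (y - w) = 0 := by
    apply hN
    · rw [← hcomm, hu]
    · refine ⟨N + β + 1, ?_⟩
      have e1 : m ^ (N + β + 1) • y = m ^ β • m • x := by
        rw [← hy, smul_smul, smul_smul]
        congr 1
        ring
      rw [← map_nsmul, smul_sub, map_sub, e1, map_nsmul, map_nsmul, hz, smul_zero]
      have e2 : m ^ (N + β + 1) • w = 0 := by
        rw [pow_succ', mul_smul, hw, smul_zero]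
      rw [e2, map_zero, sub_zero]
  have h2 : sp (m ^ N • w) = sp x := by
    rw [map_sub, smul_sub, sub_eq_zero, ← map_nsmul, ← map_nsmul, hy] at h1
    exact h1.symm
  refine ⟨m ^ N • w, ?_, h2⟩
  apply hinj (β + N) _ _
  · rw [map_nsmul, h2, hz]
  · rw [smul_comm]
    have : m ^ (β + N) • m ^ N • w = m ^ N • m ^ (N + β) • w := by
      rw [smul_smul, smul_smul]
      congr 1
      ring
    rw [this, hw, smul_zero, smul_zero]

end

end Fermat.Agent.TL
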