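import Fermat.Agent.TL.GalC

/-!
# Divisibility of the Jacobian over `ℂ`
-/

set_option autoImplicit false
set_option linter.unusedSectionVars false
set_option linter.style.haveILetI false

open scoped MatrixGroups

noncomputable section

namespace Fermat.Agent.TL

open AlgebraicCurve ModularCurve Fermat.Agent.RR Fermat.Agent.Curve IntermediateField Module
open Fermat.Agent.ModPoly Fermat.Agent.KumG Fermat.Agent.MW Fermat.Agent.SSH

attribute [local instance] fgAlg fgCExt nonempty_emb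

variable {Γ : Subgroup SL(2, ℤ)} [LvlG Γ] [RatG Γ]

theorem exists_tv_eq (t : ℂ) : ∃ P : Place ℂ (FG Γ ℂ), tv Γ P = t := by
  have htr := transcendental_jj (K := ℂ) (Γ := Γ)
  have h2 : Transcendental ℂ (jj Γ ℂ - algebraMap ℂ (FG Γ ℂ) t) := transcendental_sub htr t
  obtain ⟨v, hv⟩ := exists_zero' h2
  exact ⟨v, ev_unique (Ge.of_le (by omega))⟩

theorem finite_fiber (t : ℂ) : {P : Place ℂ (FG Γ ℂ) | tv Γ P = t}.Finite :=
  finite_fiber' (transcendental_jj (K := ℂ) (Γ := Γ)) t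

theorem kr_KS {S : Set ℂ} {P : Place ℂ (FG Γ ℂ)} : Kr (KS S) P ↔ tv Γ P ∈ KS S := by
  constructor
  · rintro ⟨a, ha⟩
    rw [← ha]
    exact a.2
  · intro h
    exact ⟨⟨_, h⟩, rfl⟩

/-- successively generic points -/
theorem exists_generic {P₀ : Place ℂ (FG Γ ℂ)} (n : ℕ) (hn : n ≤ rrGenus ℂ (FG Γ ℂ)) :
    ∃ (T : Finset ℂ) (D : Divisor ℂ (FG Γ ℂ)), T.card = n ∧
      (AlgebraicIndependent.matroid ℚ ℂ).Indep (T : Set ℂ) ∧ 0 ≤ D ∧ Divisor.degree D = n ∧
      ell D = 1 ∧ D P₀ = 0 ∧ ∀ t ∈ T, ∃ P, D P ≠ 0 ∧ tv Γ P = t := by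
  classical
  induction n with
  | zero =>
    refine ⟨∅, 0, rfl, ?_, le_rfl, by simp, ell_zero, rfl, by simp⟩
    rw [Finset.coe_empty]
    exact Matroid.empty_indep _
  | succ n ih =>
    obtain ⟨T, D, h1, h2, h3, h4, h5, h6, h7⟩ := ih (by omega)
    have hbad := finite_bad h5 (by rw [h4]; exact_mod_cast hn)
    let B : Set ℂ := (T : Set ℂ) ∪ (tv Γ '' {P | ell (D + Finsupp.single P 1) ≠ 1}) ∪ {tv Γ P₀}
    have hB : B.Finite := (T.finite_toSet.union (hbad.image _)).union (Set.finite_singleton _)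
    haveI : Countable B := hB.countable.to_subtype
    obtain ⟨t, ht⟩ := exists_notMem_KS B
    obtain ⟨P, hP⟩ := exists_tv_eq (Γ := Γ) t
    have hPP : P ≠ P₀ := by
      rintro rfl
      apply ht
      rw [← hP]
      exact subset_KS B (Or.inr rfl)
    have hell : ell (D + Finsupp.single P 1) = 1 := by
      by_contra h
      apply ht
      rw [← hP]
      exact subset_KS B (Or.inl (Or.inr ⟨P, h, rfl⟩))
    have htT : t ∉ (AlgebraicIndependent.matroid ℚ ℂ).closure (T : Set ℂ) := by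
      intro h
      rw [← mem_KS_iff_closure] at h
      exact ht (KS_mono (fun x hx => Or.inl (Or.inl hx)) h)
    have htT' : t ∉ T := by
      intro h
      exact htT ((AlgebraicIndependent.matroid ℚ ℂ).subset_closure _ (by simp) h)
    refine ⟨insert t T, D + Finsupp.single P 1, ?_, ?_, ?_, ?_, hell, ?_, ?_⟩
    · rw [Finset.card_insert_of_notMem htT', h1]
    · rw [Finset.coe_insert]
      exact ((h2.notMem_closure_iff (e := t) (by simp)).1 htT).1
    · exact add_nonneg h3 (Spec.single_le_of_nonneg P)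
    · rw [map_add, h4, degree_single']; push_cast; ring
    · rw [Finsupp.add_apply, h6, Finsupp.single_eq_of_ne hPP.symm, add_zero]
    · intro s hs
      rw [Finset.mem_insert] at hs
      rcases hs with rfl | hs
      · refine ⟨P, ?_, hP⟩
        rw [Finsupp.add_apply, Finsupp.single_eq_same]
        have := h3 P
        rw [Finsupp.coe_zero, Pi.zero_apply] at this
        omega
      · obtain ⟨Q, hQ, hQ'⟩ := h7 s hs
        refine ⟨Q, ?_, hQ'⟩
        rw [Finsupp.add_apply]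
        have h8 := h3 Q
        have h9 := Spec.single_le_of_nonneg P Q
        rw [Finsupp.coe_zero, Pi.zero_apply] at h8 h9
        omega

theorem exists_one_lt {P₀ : Place ℂ (FG Γ ℂ)} (hP₀ : tv Γ P₀ ∈ KS ∅)
    (hg : 1 ≤ rrGenus ℂ (FG Γ ℂ)) {m : ℕ} (hm : m ≠ 0) :
    ∃ (S : Set ℂ) (Q₁ : Place ℂ (FG Γ ℂ)), S.Countable ∧ tv Γ Q₁ ∉ KS S ∧
      ∀ Q : Place ℂ (FG Γ ℂ), tv Γ Q ∉ KS S → ∃ z : Pic0 ℂ (FG Γ ℂ),
        m • z = cl P₀ (Finsupp.single Q 1) - cl P₀ (Finsupp.single Q₁ 1) := by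
  classical
  obtain ⟨T, D, h1, h2, h3, h4, h5, h6, h7⟩ := exists_generic (Γ := Γ) (P₀ := P₀) _ le_rfl
  have hkrP₀ : ∀ S : Set ℂ, Kr (KS S) P₀ := fun S =>
    kr_KS.2 (KS_mono (Set.empty_subset _) hP₀)
  set y := cl P₀ D with hy
  set x := m • y with hx
  have hDmin : minD P₀ y = D := minD_eq P₀ ⟨h3, h6, h5⟩ rfl
  set E := minD P₀ x with hE
  have hEmin := isMin_minD P₀ x
  rw [← hE] at hEmin
  set T' : Finset ℂ := E.support.image (tv Γ) with hT'
  -- `T ⊆ cl T'`
  have hTT' : (T : Set ℂ) ⊆ (AlgebraicIndependent.matroid ℚ ℂ).closure (T' : Set ℂ) := by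
    intro t ht
    obtain ⟨P, hP, rfl⟩ := h7 t ht
    rw [← mem_KS_iff_closure, ← kr_KS]
    refine kr_of_nsmul (K := KS (T' : Set ℂ)) (hkrP₀ _) hm (x := x) (y := y) rfl ?_ P
      (by rw [hDmin]; exact hP)
    intro Q hQ
    rw [kr_KS]
    apply subset_KS
    rw [hT', Finset.mem_coe, Finset.mem_image]
    exact ⟨Q, Finsupp.mem_support_iff.2 hQ, rfl⟩
  have hrk : ((T.card : ℕ) : ℕ∞) ≤ (AlgebraicIndependent.matroid ℚ ℂ).eRk (T' : Set ℂ) := by
    have := h2.encard_le_eRk_of_subset hTT'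
    rw [Matroid.eRk_closure_eq, Set.encard_coe_eq_coe_finsetCard] at this
    exact this
  have hcard1 : T'.card ≤ E.support.card := Finset.card_image_le
  have hcard2 : (E.support.card : ℤ) ≤ Divisor.degree E := by
    have : Divisor.degree E = ∑ v ∈ E.support, E v := RR.degree_eq E
    rw [this, Finset.card_eq_sum_ones, Nat.cast_sum]
    refine Finset.sum_le_sum fun v hv => ?_
    have h8 := hEmin.nonneg v
    rw [Finsupp.mem_support_iff] at hv
    rw [Finsupp.coe_zero, Pi.zero_apply] at h8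
    push_cast
    omega
  have hdegE := degree_minD_le P₀ x
  rw [← hE] at hdegE
  have hT'le : T.card ≤ T'.card := by
    have := hrk.trans ((AlgebraicIndependent.matroid ℚ ℂ).eRk_le_encard _)
    rw [Set.encard_coe_eq_coe_finsetCard] at this
    exact_mod_cast this
  have hT'card : T'.card = rrGenus ℂ (FG Γ ℂ) := by omega
  have hsupp : E.support.card = rrGenus ℂ (FG Γ ℂ) := by omega
  have hdeg : Divisor.degree E = rrGenus ℂ (FG Γ ℂ) := by omega
  have hT'ind : (AlgebraicIndependent.matroid ℚ ℂ).Indep (T' : Set ℂ) := by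
    rw [Matroid.indep_iff_eRk_eq_encard_of_finite T'.finite_toSet]
    apply le_antisymm (Matroid.eRk_le_encard _ _)
    rw [Set.encard_coe_eq_coe_finsetCard, hT'card, ← h1]
    exact hrk
  have hinj : Set.InjOn (tv Γ) E.support := by
    apply Finset.card_image_iff.1
    rw [← hT', hT'card, hsupp]
  have hmult : ∀ v ∈ E.support, E v = 1 := by
    by_contra hcon
    push Not at hcon
    obtain ⟨v, hv, hv1⟩ := hcon
    have h8 : ∀ w ∈ E.support, (1 : ℤ) ≤ E w := by
      intro w hw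
      have h9 := hEmin.nonneg w
      rw [Finsupp.mem_support_iff] at hw
      rw [Finsupp.coe_zero, Pi.zero_apply] at h9
      omega
    have h10 : (E.support.card : ℤ) < Divisor.degree E := by
      have : Divisor.degree E = ∑ v ∈ E.support, E v := RR.degree_eq E
      rw [this, Finset.card_eq_sum_ones, Nat.cast_sum]
      refine Finset.sum_lt_sum (fun w hw => by have := h8 w hw; push_cast; exact this)
        ⟨v, hv, ?_⟩
      have := h8 v hv
      push_cast
      omega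
    omega
  obtain ⟨Q₁, hQ₁⟩ : E.support.Nonempty := by
    rw [← Finset.card_pos, hsupp]
    omega
  set E' : Divisor ℂ (FG Γ ℂ) := E - Finsupp.single Q₁ 1 with hE'
  set S : Set ℂ := (((E.support.erase Q₁).image (tv Γ) : Finset ℂ) : Set ℂ) with hS
  have hQ₁S : tv Γ Q₁ ∉ KS S := by
    rw [mem_KS_iff_closure]
    have h8 : (T' : Set ℂ) = insert (tv Γ Q₁) S := by
      rw [hT', hS, ← Finset.coe_insert, ← Finset.image_insert, Finset.insert_erase hQ₁]
    have h9 : tv Γ Q₁ ∉ S := by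
      rw [hS, Finset.mem_coe, Finset.mem_image]
      rintro ⟨R, hR, hRQ⟩
      rw [Finset.mem_erase] at hR
      exact hR.1 (hinj hR.2 hQ₁ hRQ)
    have h10 : (AlgebraicIndependent.matroid ℚ ℂ).Indep S :=
      hT'ind.subset (by rw [h8]; exact Set.subset_insert _ _)
    rw [h8] at hT'ind
    exact ((h10.insert_indep_iff_of_notMem h9).1 hT'ind).2
  have hSc : S.Countable := Finset.countable_toSet _
  haveI : Countable S := hSc.to_subtype
  refine ⟨S, Q₁, hSc, hQ₁S, ?_⟩
  intro Q hQ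
  obtain ⟨σ, hσ, hσQ⟩ := exists_conj_place (K := KS S) (P := Q₁) (Q := Q)
    (fun h => hQ₁S (kr_KS.1 h)) (fun h => hQ (kr_KS.1 h))
  refine ⟨cA Γ σ • y - y, ?_⟩
  rw [nsmul_smul_sub m _ hx.symm]
  have h8 : cA Γ σ • E' = E' := by
    ext v
    rw [SemilinearAut.divisor_smul_apply]
    have h9 : ∀ w, E' w ≠ 0 → Kr (KS S) w := by
      intro w hw
      rw [kr_KS]
      apply subset_KS
      rw [hS, Finset.mem_coe, Finset.mem_image]
      refine ⟨w, ?_, rfl⟩
      rw [Finset.mem_erase]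
      have hne : w ≠ Q₁ := by
        rintro rfl
        apply hw
        rw [hE', Finsupp.sub_apply, Finsupp.single_eq_same, hmult w hQ₁, sub_self]
      refine ⟨hne, ?_⟩
      rw [hE', Finsupp.sub_apply, Finsupp.single_eq_of_ne hne, sub_zero] at hw
      exact Finsupp.mem_support_iff.2 hw
    by_cases hv : E' v = 0
    · rw [hv]
      by_contra h10
      have h11 := (h9 _ h10).smul_eq hσ
      rw [smul_inv_smul] at h11
      rw [← h11] at h10
      exact h10 hv
    · have h11 := (h9 _ hv).smul_eq hσ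
      rw [inv_smul_eq_iff.2 h11.symm]
  have h9 : cl P₀ E = x := cl_minD P₀ x
  have h10 : E = E' + Finsupp.single Q₁ 1 := by rw [hE', sub_add_cancel]
  rw [← h9, ← cl_smul P₀ ((hkrP₀ S).smul_eq hσ), ← map_sub, ← map_sub]
  congr 1
  rw [h10, smul_add, h8, SemilinearAut.smul_single, hσQ]
  abel

/-- **Divisibility over `ℂ`.** -/
theorem divisible_C {m : ℕ} (hm : m ≠ 0) (x : Pic0 ℂ (FG Γ ℂ)) : ∃ y, m • y = x := by
  classical
  -- a base point
  obtain ⟨P₀, hP₀⟩ := exists_tv_eq (Γ := Γ) 0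
  have hP₀' : tv Γ P₀ ∈ KS ∅ := by rw [hP₀]; exact zero_mem _
  rcases Nat.eq_zero_or_pos (rrGenus ℂ (FG Γ ℂ)) with hg | hg
  · have h1 := degree_minD_le P₀ x
    rw [hg, Nat.cast_zero] at h1
    have h2 := (isMin_minD P₀ x).nonneg
    have h3 : 0 = minD P₀ x := Spec.eq_of_le_of_degree h2 (by
      rw [map_zero]
      exact h1)
    refine ⟨0, ?_⟩
    rw [smul_zero, ← cl_minD P₀ x, ← h3, map_zero]
  obtain ⟨S, Q₁, hS, hQ₁, h⟩ := exists_one_lt hP₀' hg hm
  let H : AddSubgroup (Pic0 ℂ (FG Γ ℂ)) := (nsmulAddMonoidHom (α := Pic0 ℂ (FG Γ ℂ)) m).range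
  have hH : ∀ z, z ∈ H ↔ ∃ y, m • y = z := fun z => Iff.rfl
  haveI : Countable S := hS.to_subtype
  have hcount : {Q : Place ℂ (FG Γ ℂ) | tv Γ Q ∈ KS S}.Countable := by
    have : {Q : Place ℂ (FG Γ ℂ) | tv Γ Q ∈ KS S} ⊆
        ⋃ t ∈ (KS S : Set ℂ), {P : Place ℂ (FG Γ ℂ) | tv Γ P = t} := by
      intro Q hQ
      simp only [Set.mem_iUnion]
      exact ⟨_, hQ, rfl⟩
    refine Set.Countable.mono this ?_
    refine Set.Countable.biUnion ?_ fun t _ => (finite_fiber t).countable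
    exact (inferInstance : Countable (KS S))
  have key : ∀ R : Place ℂ (FG Γ ℂ),
      cl P₀ (Finsupp.single R 1) - cl P₀ (Finsupp.single Q₁ 1) ∈ H := by
    intro R
    obtain ⟨c, hc⟩ := exists_single_pole R
    have hn : ∀ n : ℕ, c ≤ n →
        n • (cl P₀ (Finsupp.single R 1) - cl P₀ (Finsupp.single Q₁ 1)) ∈ H := by
      intro n hn
      obtain ⟨f, hf, hfp⟩ := hc n hn
      obtain ⟨α, hα⟩ : ∃ α : ℂ, α ∉ (fun Q => ev Q f) '' {Q : Place ℂ (FG Γ ℂ) | tv Γ Q ∈ KS S} := by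
        by_contra hcon
        push Not at hcon
        exact not_countable_complex ((hcount.image _).mono fun x _ => hcon x)
      obtain ⟨Z, -, hZd, hZ, hcl⟩ := cl_fiber (P₀ := P₀) hf hfp α
      have h1 := cl_sub_mem (P₀ := P₀) (Q₁ := Q₁) H Z (by
        intro Q hQ
        rw [hH]
        apply h
        intro hQ'
        exact hα ⟨Q, hQ', hZ Q hQ⟩)
      rw [hcl, hZd, natCast_zsmul, ← nsmul_sub] at h1
      exact h1
    have h1 := hn c le_rfl
    have h2 := hn (c + 1) (Nat.le_succ c)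
    have h3 := H.sub_mem h2 h1
    rw [succ_nsmul, add_sub_cancel_left] at h3
    exact h3
  have hQ₁H : cl P₀ (Finsupp.single Q₁ 1) ∈ H := by
    have := H.neg_mem (key P₀)
    rwa [cl_single_self, zero_sub, neg_neg] at this
  have h1 := cl_sub_mem (P₀ := P₀) (Q₁ := Q₁) H (minD P₀ x) (fun Q _ => key Q)
  rw [cl_minD] at h1
  have h2 := H.add_mem h1 (H.zsmul_mem hQ₁H (Divisor.degree (minD P₀ x)))
  rw [sub_add_cancel, hH] at h2
  exact h2

end Fermat.Agent.TL
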