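import Fermat.Agent.TL.DivC
import Fermat.Agent.MW.DivK

/-!
# Divisibility of the Jacobian over algebraically closed subfields of `ℂ`
-/

set_option autoImplicit false
set_option linter.unusedSectionVars false
set_option linter.style.haveILetI false

open scoped MatrixGroups

noncomputable section

namespace Fermat.Agent.TL

open AlgebraicCurve ModularCurve Fermat.Agent.RR Fermat.Agent.Curve IntermediateField Module
open Fermat.Agent.ModPoly Fermat.Agent.KumG Fermat.Agent.MW Fermat.Agent.SSH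

attribute [local instance] fgAlg fgCExt nonempty_emb

variable {Γ : Subgroup SL(2, ℤ)} [LvlG Γ] [RatG Γ]

/-- **Divisibility.** -/
theorem divisible (K : Type) [Field K] [IsAlgClosed K] [CharZero K] [Algebra ℚ K] [Algebra K ℂ] {m : ℕ}
    (hm : m ≠ 0) (x : Pic0 K (FG Γ K)) : ∃ y, m • y = x := by
  classical
  have hg : rrGenus K (FG Γ K) = rrGenus ℂ (FG Γ ℂ) := genus_fg
  obtain ⟨P₁, -⟩ := exists_place_avoid (K := K) (F := FG Γ K) ∅
  obtain ⟨D, rfl⟩ := cl_surjective P₁ x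
  obtain ⟨P₀, hP₀⟩ : ∃ P₀, P₀ = bcP ℂ (FG Γ ℂ) P₁ := ⟨_, rfl⟩
  have hkr : Kr K P₀ := (kr_iff P₀).2 ⟨P₁, hP₀⟩
  obtain ⟨y, hy⟩ := divisible_C (Γ := Γ) hm (cl P₀ (bcD ℂ (FG Γ ℂ) D))
  have h1 : ∀ P, minD P₀ (cl P₀ (bcD ℂ (FG Γ ℂ) D)) P ≠ 0 → Kr K P := by
    apply kr_of_finite_orbit hkr
    refine (Set.finite_singleton (cl P₀ (bcD ℂ (FG Γ ℂ) D))).subset ?_
    rintro _ ⟨σ, hσ, rfl⟩
    rw [Set.mem_singleton_iff, ← cl_smul P₀ (hkr.smul_eq hσ), hσ.fixF.smul_bcD]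
  have h2 := kr_of_nsmul hkr hm hy h1
  obtain ⟨E, hE⟩ := exists_bcD (k := K) (F := FG Γ K) (minD P₀ y) (fun P hP => (kr_iff P).1 (h2 P hP))
  refine ⟨cl P₁ E, ?_⟩
  rw [← sub_eq_zero, ← map_nsmul, ← map_sub]
  apply (cl_bcD_eq_zero hg).1
  rw [← hP₀, map_sub, map_sub, map_nsmul, map_nsmul, hE, cl_minD, hy, sub_self]

end Fermat.Agent.TL
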