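import Fermat.Agent.MW.GalGen
import Fermat.Agent.MW.AutC
import Fermat.Agent.E2.Desc
import Fermat.Agent.SSH.Gal
import Fermat.Agent.FFG.Lift
import Fermat.Agent.KumG.Places

/-!
# The function field of level `Γ` as a constant curve
-/

set_option autoImplicit false
set_option linter.unusedSectionVars false
set_option linter.style.haveILetI false

open scoped MatrixGroups

noncomputable section

namespace Fermat.Agent.TL

open AlgebraicCurve ModularCurve Fermat.Agent.RR Fermat.Agent.Curve IntermediateField Module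
open Fermat.Agent.ModPoly Fermat.Agent.KumG Fermat.Agent.MW Fermat.Agent.SSH

section

variable (k Ω : Type*) [Field k] [Field Ω] [Algebra k Ω] [Algebra ℚ k] [Algebra ℚ Ω]
  (Γ : Subgroup SL(2, ℤ)) [LvlG Γ]

/-- extension of constants of the function field -/
@[reducible] def fgAlg : Algebra (FG Γ k) (FG Γ Ω) := (E2.emb k Ω Γ).toAlgebra

attribute [local instance] fgAlg

theorem coe_fgAlg (x : FG Γ k) : ((algebraMap (FG Γ k) (FG Γ Ω) x : FG Γ Ω) : LaurentSeries Ω) =
    coeffMap (algebraMap k Ω) (x : LaurentSeries k) := rfl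

theorem coeffMap_emb (z : LaurentSeries ℚ) :
    coeffMap (algebraMap k Ω) (coeffEmb k z) = coeffEmb Ω z := by
  rw [coeffEmb, coeffEmb, coeffMap_coeffMap,
    Subsingleton.elim ((algebraMap k Ω).comp (algebraMap ℚ k)) (algebraMap ℚ Ω)]

theorem fgCExt : CExt k Ω (FG Γ k) (FG Γ Ω) where
  comm a := E2.emb_algebraMap a
  gen E hE := by
    rw [eq_top_iff]
    intro x _
    have h1 : ∀ y ∈ FG Γ Ω, y ∈ (E.toSubfield.map (FG Γ Ω).toSubfield.subtype) := by
      apply FG_le
      · intro a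
        exact ⟨algebraMap Ω (FG Γ Ω) a, E.algebraMap_mem a, rfl⟩
      · intro z hz
        refine ⟨algebraMap (FG Γ k) (FG Γ Ω) ⟨coeffEmb k z, coeffEmb_mem_laurentBaseChange k hz⟩,
          hE _, ?_⟩
        exact coeffMap_emb k Ω z
    obtain ⟨y, hy, hyx⟩ := h1 x x.2
    have h2 : y = x := Subtype.ext hyx
    rw [← h2]
    exact hy
  tr f := by
    rintro ⟨a, ha⟩
    have h1 := congrArg (fun x : FG Γ Ω => (x : LaurentSeries Ω)) ha
    simp only [coe_fgAlg] at h1
    have h2 : ((algebraMap Ω (FG Γ Ω) a : FG Γ Ω) : LaurentSeries Ω) = HahnSeries.C a := by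
      rw [← algebraMap_eq_C]; rfl
    rw [h2] at h1
    refine ⟨(f : LaurentSeries k).coeff 0, ?_⟩
    apply Subtype.ext
    change algebraMap k (LaurentSeries k) _ = _
    rw [algebraMap_eq_C]
    ext n
    have h3 := congrArg (fun x : LaurentSeries Ω => x.coeff n) h1
    simp only [coeffMap_coeff] at h3
    by_cases hn : n = 0
    · subst hn
      simp
    · rw [HahnSeries.C_apply, HahnSeries.coeff_single_of_ne hn] at h3
      rw [HahnSeries.C_apply, HahnSeries.coeff_single_of_ne hn]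
      exact ((map_eq_zero (algebraMap k Ω)).1 h3.symm).symm

variable {Ω} in
/-- the coefficientwise action -/
def cA (σ : Ω ≃+* Ω) : SemilinearAut Ω (FG Γ Ω) := galF FG_cstab σ

variable {Γ Ω} in
theorem coe_cA_smul (σ : Ω ≃+* Ω) (x : FG Γ Ω) :
    ((cA Γ σ • x : FG Γ Ω) : LaurentSeries Ω) = coeffMap (σ : Ω →+* Ω) x := rfl

end

section genus

attribute [local instance] fgAlg fgCExt

variable (K : Type) [Field K] [IsAlgClosed K] [CharZero K] [Algebra ℚ K] [Algebra K ℂ]
  {Γ : Subgroup SL(2, ℤ)} [LvlG Γ]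

/-- local instance -/
theorem nonempty_emb (K : Type*) [Field K] [Algebra K ℂ] : Nonempty (K →+* ℂ) :=
  ⟨algebraMap K ℂ⟩

attribute [local instance] nonempty_emb

/-- automorphisms of `ℂ` over `K` -/
def GK (σ : ℂ ≃+* ℂ) : Prop := ∀ c : K, σ (algebraMap K ℂ c) = algebraMap K ℂ c

variable {K}

theorem GK.fixF {σ : ℂ ≃+* ℂ} (h : GK K σ) : FixF (FG Γ K) (cA Γ σ) := by
  intro f
  apply Subtype.ext
  rw [coe_cA_smul, bc, coe_fgAlg]
  ext n
  rw [coeffMap_coeff, coeffMap_coeff]
  exact h _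

theorem mem_range_of_fix {a : ℂ} (h : ∀ σ : ℂ ≃+* ℂ, GK K σ → σ a = a) :
    a ∈ Set.range (algebraMap K ℂ) := by
  have h1 : {b : ℂ | ∃ σ : ℂ ≃+* ℂ, (∀ c : K, σ (algebraMap K ℂ c) = algebraMap K ℂ c) ∧
      σ a = b}.Finite := by
    refine (Set.finite_singleton a).subset ?_
    rintro b ⟨σ, hσ, rfl⟩
    exact h σ hσ
  obtain ⟨b, hb⟩ := Curve.mem_range_of_isAlgebraic (MW.isAlgebraic_of_finite K h1)
  exact ⟨b, hb⟩

/-- functions fixed by the automorphisms of the constants descend -/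
theorem exists_bc_of_fix [RatG Γ] {x : FG Γ ℂ} (h : ∀ σ : ℂ ≃+* ℂ, GK K σ → cA Γ σ • x = x) :
    ∃ y : FG Γ K, bc (FG Γ K) (FG Γ ℂ) y = x := by
  have h1 : ∀ n : ℤ, ∃ b : K, algebraMap K ℂ b = (x : LaurentSeries ℂ).coeff n := by
    intro n
    apply mem_range_of_fix
    intro σ hσ
    have h2 := congrArg (fun z : FG Γ ℂ => (z : LaurentSeries ℂ).coeff n) (h σ hσ)
    simp only [coe_cA_smul, coeffMap_coeff] at h2
    exact h2
  choose b hb using h1
  have hb0 : ∀ n, b n = 0 ↔ (x : LaurentSeries ℂ).coeff n = 0 := fun n => by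
    rw [← hb n]
    exact (map_eq_zero_iff _ (algebraMap K ℂ).injective).symm
  let y : LaurentSeries K :=
    { coeff := b
      isPWO_support' := by
        refine (x : LaurentSeries ℂ).isPWO_support.mono ?_
        intro n hn hn'
        exact hn ((hb0 n).2 hn') }
  have hy : coeffMap (algebraMap K ℂ) y = (x : LaurentSeries ℂ) := by
    ext n
    rw [coeffMap_coeff]
    exact hb n
  exact ⟨⟨y, mem_FG_of_coeffMap_mem (algebraMap K ℂ) (by rw [hy]; exact x.2)⟩,
    Subtype.ext hy⟩

theorem ell_bcD_le [RatG Γ] (D : Divisor K (FG Γ K)) : ell (bcD ℂ (FG Γ ℂ) D) ≤ ell D := by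
  classical
  obtain ⟨f, hf, hfix, hind⟩ := FFG.exists_fixed_basis (X := ℤ) (K := ℂ) (F := FG Γ ℂ)
    (Γ := {σ : ℂ ≃+* ℂ // GK K σ})
    (fun n =>
      { toFun := fun x => (x : LaurentSeries ℂ).coeff n
        map_add' := fun x y => rfl
        map_smul' := fun c x => by
          change ((algebraMap ℂ (LaurentSeries ℂ) c * (x : LaurentSeries ℂ))).coeff n = _
          rw [algebraMap_eq_C, HahnSeries.C_mul_eq_smul, HahnSeries.coeff_smul]
          rfl })
    (fun x hx => by
      apply Subtype.ext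
      ext n
      exact hx n)
    (fun σ => (σ.1 : ℂ →+* ℂ))
    (fun σ x => cA Γ σ.1 • x)
    (fun σ n x => by
      change ((cA Γ σ.1 • x : FG Γ ℂ) : LaurentSeries ℂ).coeff n = _
      rw [coe_cA_smul, coeffMap_coeff]
      rfl)
    (riemannRochSpace (bcD ℂ (FG Γ ℂ) D)) (fun σ x hx => by
      have h1 := Spec.smul_mem_L (cA Γ σ.1) hx
      rwa [(GK.fixF σ.2).smul_bcD] at h1)
  have h1 : ∀ i, ∃ y : FG Γ K, bc (FG Γ K) (FG Γ ℂ) y = f i := fun i =>
    exists_bc_of_fix (fun σ hσ => hfix ⟨σ, hσ⟩ i)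
  choose y hy using h1
  have hyL : ∀ i, y i ∈ riemannRochSpace D := fun i => by
    apply (bc_mem_L (K := K) (K' := ℂ) (F := FG Γ K) (F' := FG Γ ℂ)).1
    rw [hy i]
    exact hf i
  have hind' : LinearIndependent K (fun i => (⟨y i, hyL i⟩ : riemannRochSpace D)) := by
    rw [Fintype.linearIndependent_iff]
    intro c hc
    have h2 : ∑ i, c i • y i = 0 := by
      have := congrArg (fun z : riemannRochSpace D => (z : FG Γ K)) hc
      simpa using this
    have h3 : ∑ i, (algebraMap K ℂ (c i)) • f i = 0 := by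
      rw [← map_zero (bc (FG Γ K) (FG Γ ℂ)), ← h2, map_sum]
      refine Finset.sum_congr rfl fun i _ => ?_
      rw [Algebra.smul_def, Algebra.smul_def, map_mul, hy i]
      congr 1
      exact (E2.emb_algebraMap (c i)).symm
    intro i
    have h4 := Fintype.linearIndependent_iff.1 hind _ h3 i
    exact (map_eq_zero_iff _ (algebraMap K ℂ).injective).1 h4
  have h2 := hind'.fintype_card_le_finrank
  rw [Fintype.card_fin] at h2
  exact h2

/-- the genus does not change under extension of constants -/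
theorem genus_fg [RatG Γ] : rrGenus K (FG Γ K) = rrGenus ℂ (FG Γ ℂ) := by
  obtain ⟨c, hc⟩ := exists_riemann (K := K) (F := FG Γ K)
  obtain ⟨c', hc'⟩ := exists_riemann (K := ℂ) (F := FG Γ ℂ)
  obtain ⟨P, -⟩ := exists_place_avoid (K := K) (F := FG Γ K) ∅
  have h1 := hc (Finsupp.single P (max c c')) (by rw [degree_single']; exact le_max_left _ _)
  have h2 := hc' (bcD ℂ (FG Γ ℂ) (Finsupp.single P (max c c')))
    (by rw [degree_bcD, degree_single']; exact le_max_right _ _)
  have h3 : ell (bcD ℂ (FG Γ ℂ) (Finsupp.single P (max c c'))) = ell (Finsupp.single P (max c c')) :=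
    le_antisymm (ell_bcD_le _) (ell_le_ell_bcD _)
  rw [degree_bcD, h3, h1] at h2
  omega

end genus

end Fermat.Agent.TL
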