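import Fermat.Agent.MW.GalGen

/-!
# Finiteness of the divisor classes fixed by a Frobenius automorphism
-/

set_option autoImplicit false
set_option linter.unusedSectionVars false
set_option linter.style.haveILetI false

noncomputable section

namespace Fermat.Agent.TL

open AlgebraicCurve Fermat.Agent.RR Fermat.Agent.Curve IntermediateField Module Fermat.Agent.MW

variable {k E : Type*} [Field k] [IsAlgClosed k] [Field E] [Algebra k E] [FunField k E]

theorem finite_ev_eq {t : E} (ht : Transcendental k t) (c : k) :
    {P : Place k E | ev P t = c}.Finite := by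
  refine ((divisor k t).support.finite_toSet.union
    (divisor k (t - algebraMap k E c)).support.finite_toSet).subset ?_
  intro P hP
  have ht0 : t ≠ 0 := by rintro rfl; exact ht isAlgebraic_zero
  have h2 : t - algebraMap k E c ≠ 0 := by
    intro h
    apply ht
    rw [sub_eq_zero.1 h]
    exact isAlgebraic_algebraMap _
  by_cases h3 : P.ord t < 0
  · left
    rw [Finset.mem_coe, Finsupp.mem_support_iff, divisor_apply]
    exact h3.ne
  · right
    have h4 := (ev_spec (Ge.of_le (not_lt.1 h3) : Ge P 0 t))
    have h5 : ev P t = c := hP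
    rw [h5] at h4
    have h6 := h4.le_ord h2
    rw [Finset.mem_coe, Finsupp.mem_support_iff, divisor_apply]
    omega

theorem baseAut_pow (σ : SemilinearAut k E) (n : ℕ) :
    SemilinearAut.baseAut (σ ^ n) = SemilinearAut.baseAut σ ^ n := by
  induction n with
  | zero => rw [pow_zero, pow_zero, SemilinearAut.baseAut_one]
  | succ n ih => rw [pow_succ, pow_succ, SemilinearAut.baseAut_mul, ih]

theorem finite_fix_place (τ : SemilinearAut k E) {t : E} (ht : Transcendental k t)
    (hτt : τ • t = t) (hfin : {c : k | SemilinearAut.baseAut τ c = c}.Finite) :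
    {v : Place k E | τ • v = v}.Finite := by
  have h1 : (⋃ c ∈ {c : k | SemilinearAut.baseAut τ c = c}, {P : Place k E | ev P t = c}).Finite :=
    hfin.biUnion fun c _ => finite_ev_eq ht c
  refine h1.subset ?_
  intro v hv
  simp only [Set.mem_iUnion]
  refine ⟨ev v t, ?_, rfl⟩
  have h2 := MW.ev_smul τ v t
  have h3 : τ • v = v := hv
  rw [hτt, h3] at h2
  exact h2.symm

/-- **Finiteness of the classes fixed by Frobenius.** -/
theorem finite_fix_pic (σ : SemilinearAut k E) {t : E} (ht : Transcendental k t)
    (hσt : σ • t = t) (hfin : ∀ n : ℕ, n ≠ 0 → {c : k | (SemilinearAut.baseAut σ ^ n) c = c}.Finite)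
    {P₀ : Place k E} (hP₀ : σ • P₀ = P₀) :
    {b : Pic0 k E | σ • b = b}.Finite := by
  classical
  obtain ⟨g, hg⟩ : ∃ g, g = rrGenus k E := ⟨_, rfl⟩
  have hS : {v : Place k E | σ ^ g.factorial • v = v}.Finite := by
    apply finite_fix_place (σ ^ g.factorial) ht
    · have : ∀ n : ℕ, σ ^ n • t = t := by
        intro n
        induction n with
        | zero => rw [pow_zero, one_smul]
        | succ n ih => rw [pow_succ, mul_smul, hσt, ih]
      exact this _
    · rw [baseAut_pow]
      exact hfin _ (Nat.factorial_ne_zero g)
  have h1 : (Set.Icc (0 : Divisor k E) (∑ v ∈ hS.toFinset, Finsupp.single v (g : ℤ))).Finite :=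
    Set.finite_Icc _ _
  refine Set.Finite.of_finite_image (f := minD P₀) (h1.subset ?_) (minD_injective P₀).injOn
  rintro _ ⟨b, hb, rfl⟩
  have hb' : σ • b = b := hb
  have hD : σ • minD P₀ b = minD P₀ b := by
    rw [← minD_smul P₀ hP₀, hb']
  have hmin := isMin_minD P₀ b
  have hdeg := degree_minD_le P₀ b
  rw [← hg] at hdeg
  set D := minD P₀ b with hDdef
  have hle : ∀ v, D v ≤ Divisor.degree D := by
    intro v
    rw [RR.degree_eq D]
    by_cases hv : v ∈ D.support
    · exact Finset.single_le_sum (f := fun v => D v) (fun w _ => hmin.nonneg w) hv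
    · rw [Finsupp.notMem_support_iff.1 hv]
      exact Finset.sum_nonneg fun w _ => hmin.nonneg w
  have hcard : (D.support.card : ℤ) ≤ g := by
    refine le_trans ?_ hdeg
    rw [RR.degree_eq D, Finset.card_eq_sum_ones, Nat.cast_sum]
    refine Finset.sum_le_sum fun v hv => ?_
    have h8 := hmin.nonneg v
    rw [Finsupp.mem_support_iff] at hv
    rw [Finsupp.coe_zero, Pi.zero_apply] at h8
    push_cast
    omega
  have hsupp : ∀ v ∈ D.support, v ∈ hS.toFinset := by
    intro v hv
    rw [hS.mem_toFinset]
    -- the orbit stays in the support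
    have horb : ∀ n : ℕ, σ ^ n • v ∈ D.support := by
      intro n
      induction n with
      | zero => rwa [pow_zero, one_smul]
      | succ n ih =>
        rw [pow_succ', mul_smul]
        rw [Finsupp.mem_support_iff] at ih ⊢
        have := SemilinearAut.divisor_smul_apply_smul σ D (σ ^ n • v)
        rw [hD] at this
        rw [this]
        exact ih
    obtain ⟨i, hi, j, hj, hij, heq⟩ := Finset.exists_ne_map_eq_of_card_lt_of_maps_to
      (s := Finset.range (g + 1)) (t := D.support) (f := fun n => σ ^ n • v)
      (by rw [Finset.card_range]; omega) (fun n _ => horb n)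
    have key : ∀ i j : ℕ, i < j → j < g + 1 → σ ^ i • v = σ ^ j • v →
        σ ^ g.factorial • v = v := by
      intro i j hij hj h
      obtain ⟨d, rfl⟩ := Nat.exists_eq_add_of_le hij.le
      have hd : 0 < d := by omega
      have h2 : σ ^ d • v = v := by
        rw [pow_add, mul_smul, smul_left_cancel_iff] at h
        exact h.symm
      obtain ⟨e, he⟩ : d ∣ g.factorial := Nat.dvd_factorial hd (by omega)
      rw [he]
      have : ∀ n : ℕ, σ ^ (d * n) • v = v := by
        intro n
        induction n with
        | zero => rw [mul_zero, pow_zero, one_smul]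
        | succ n ih => rw [Nat.mul_succ, pow_add, mul_smul, h2, ih]
      exact this e
    rw [Finset.mem_range] at hi hj
    rcases lt_or_gt_of_ne hij with h | h
    · exact key i j h hj heq
    · exact key j i h hi heq.symm
  refine ⟨hmin.nonneg, fun v => ?_⟩
  rw [Finsupp.finsetSum_apply]
  by_cases hv : v ∈ D.support
  · have h2 : ∑ w ∈ hS.toFinset, (Finsupp.single w (g : ℤ)) v = g := by
      rw [Finset.sum_eq_single v]
      · rw [Finsupp.single_eq_same]
      · intro w _ hw
        exact Finsupp.single_eq_of_ne hw.symm
      · intro h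
        exact absurd (hsupp v hv) h
    rw [h2]
    exact (hle v).trans hdeg
  · rw [Finsupp.notMem_support_iff.1 hv]
    refine Finset.sum_nonneg fun w _ => ?_
    rw [Finsupp.single_apply]
    split_ifs
    · exact Int.natCast_nonneg g
    · exact le_rfl

end Fermat.Agent.TL
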