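import Fermat.Agent.MW.Cls
import Fermat.Agent.FFG.Class
import Fermat.Agent.KumG.Places

/-!
# Finiteness of torsion in the Jacobian of level `Γ`
-/

set_option autoImplicit false
set_option linter.unusedSectionVars false
set_option linter.style.haveILetI false

open scoped MatrixGroups

noncomputable section

namespace Fermat.Agent.TL

open AlgebraicCurve ModularCurve Fermat.Agent.RR Fermat.Agent.Curve IntermediateField Module
open Fermat.Agent.ModPoly Fermat.Agent.KumG

variable {K : Type*} [Field K] [Algebra ℚ K] [IsAlgClosed K] [CharZero K] (ι : K →+* ℂ)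
  {Γ : Subgroup SL(2, ℤ)} [LvlG Γ] [RatG Γ] [Nonempty (K →+* ℂ)]

/-- torsion classes come from functions -/
theorem exists_fun_of_torsion {m : ℕ} [NeZero m] {x : Pic0 K (FG Γ K)} (hx : m • x = 0) :
    ∃ (D : Divisor.degZero (K := K) (F := FG Γ K))
      (f : FG Γ K), Pic0.mk D = x ∧ KD m f ∧ m • (D : Divisor K (FG Γ K)) = divisor K f := by
  obtain ⟨D, rfl⟩ := Pic0.mk_surjective x
  rw [Spec.nsmul_mk, Spec.pic0_mk_eq_zero] at hx
  obtain ⟨f, hf, hfD⟩ := Spec.isPrincipal_iff.1 hx
  have hfD' : m • (D : Divisor K (FG Γ K)) = divisor K f := hfD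
  refine ⟨D, f, rfl, ⟨hf, fun v => ?_⟩, hfD'⟩
  have h1 := DFunLike.congr_fun hfD' v
  rw [divisor_apply, Finsupp.smul_apply, nsmul_eq_mul] at h1
  exact ⟨_, h1.symm⟩

include ι in
theorem finite_torsion (m : ℕ) [NeZero m] :
    {x : Pic0 K (FG Γ K) | m • x = 0}.Finite := by
  classical
  have h : ∀ x : Pic0 K (FG Γ K), m • x = 0 → ∃ (D : Divisor.degZero (K := K) (F := FG Γ K))
      (f : FG Γ K), Pic0.mk D = x ∧ f ≠ 0 ∧ m • (D : Divisor K (FG Γ K)) = divisor K f ∧
      ∃ φ : Additive Γ →+ ZMod m, Rep Γ (coeffMap ι f.1) φ := by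
    intro x hx
    obtain ⟨D, f, h1, hKD, h2⟩ := exists_fun_of_torsion hx
    obtain ⟨φ, -, hφ⟩ := hKD.exists_rep ι
    exact ⟨D, f, h1, hKD.1, h2, φ, hφ⟩
  choose! D f h1 h2 h3 φ h4 using h
  apply Set.Finite.of_finite_image (f := φ)
  · exact Set.toFinite _
  · intro x hx y hy hxy
    have hx' := h4 x hx
    have hy' := h4 y hy
    change φ x = φ y at hxy
    rw [← hxy] at hy'
    have h5 : Rep Γ (coeffMap ι (f x * (f y)⁻¹).1) (0 : Additive Γ →+ ZMod m) := by
      have h6 := hx'.mul hy'.inv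
      rw [add_neg_cancel] at h6
      have : coeffMap ι (f x * (f y)⁻¹).1 = coeffMap ι (f x).1 * (coeffMap ι (f y).1)⁻¹ := by
        rw [← map_inv₀, ← map_mul]; rfl
      rw [this]
      exact h6
    obtain ⟨z, hz⟩ := exists_pow_of_rep_zero ι h5
    have hz0 : z ≠ 0 := by
      rintro rfl
      rw [zero_pow (NeZero.ne m)] at hz
      exact mul_ne_zero (h2 x hx) (inv_ne_zero (h2 y hy)) hz
    have h7 : (D x : Divisor K (FG Γ K)) - D y = divisor K z := by
      have h8 : m • ((D x : Divisor K (FG Γ K)) - D y) = m • divisor K z := by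
        rw [← Spec.divisor_pow, ← hz, Spec.divisor_mul (h2 x hx) (inv_ne_zero (h2 y hy)), smul_sub,
          h3 x hx, h3 y hy]
        have : divisor K ((f y)⁻¹) = -divisor K (f y) := by
          ext v
          rw [Finsupp.neg_apply, divisor_apply, divisor_apply, v.ord_inv]
        rw [this, sub_eq_add_neg]
      ext v
      have h9 := DFunLike.congr_fun h8 v
      rw [Finsupp.smul_apply, Finsupp.smul_apply, nsmul_eq_mul] at h9
      exact mul_left_cancel₀ (by exact_mod_cast NeZero.ne m) h9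
    rw [← h1 x hx, ← h1 y hy, ← sub_eq_zero]
    change Pic0.mk (D x - D y) = 0
    rw [Spec.pic0_mk_eq_zero]
    exact Spec.isPrincipal_iff.2 ⟨z, hz0, h7⟩

end Fermat.Agent.TL
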