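import Fermat.Agent.TL.Ext
import Fermat.Agent.TL.Tors
import Fermat.Agent.MW.DivC

/-!
# Action of the automorphisms of `ℂ` on the points of the modular curve of level `Γ`
-/

set_option autoImplicit false
set_option linter.unusedSectionVars false
set_option linter.style.haveILetI false

open scoped MatrixGroups

noncomputable section

namespace Fermat.Agent.TL

open AlgebraicCurve ModularCurve Fermat.Agent.RR Fermat.Agent.Curve IntermediateField Module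
open Fermat.Agent.ModPoly Fermat.Agent.KumG Fermat.Agent.MW Fermat.Agent.SSH

attribute [local instance] fgAlg fgCExt nonempty_emb

variable (Γ : Subgroup SL(2, ℤ)) [LvlG Γ]

theorem bc_jj (k Ω : Type*) [Field k] [Field Ω] [Algebra k Ω] [Algebra ℚ k] [Algebra ℚ Ω] :
    bc (FG Γ k) (FG Γ Ω) (jj Γ k) = jj Γ Ω := by
  apply Subtype.ext
  rw [bc, coe_fgAlg, coe_jj, coe_jj, coeffMap_jqModC]

/-- the value of `j` -/
def tv (P : Place ℂ (FG Γ ℂ)) : ℂ := ev P (jj Γ ℂ)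

variable {Γ}

theorem tv_smul [RatG Γ] (σ : ℂ ≃+* ℂ) (P : Place ℂ (FG Γ ℂ)) :
    tv Γ (cA Γ σ • P) = σ (tv Γ P) := by
  have h1 := MW.ev_smul (cA Γ σ) P (jj Γ ℂ)
  have h2 : cA Γ σ • jj Γ ℂ = jj Γ ℂ := by
    apply Subtype.ext
    rw [coe_cA_smul, coe_jj, coeffMap_jqModC]
  rw [h2] at h1
  exact h1

section

variable (K : Type) [Field K] [IsAlgClosed K] [CharZero K] [Algebra ℚ K] [Algebra K ℂ]

/-- points defined over `K` -/
def Kr (P : Place ℂ (FG Γ ℂ)) : Prop := tv Γ P ∈ Set.range (algebraMap K ℂ)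

variable {K}

variable [RatG Γ]

theorem kr_iff (P : Place ℂ (FG Γ ℂ)) : Kr K P ↔ ∃ Q : Place K (FG Γ K), P = bcP ℂ (FG Γ ℂ) Q := by
  rw [rational_iff (transcendental_jj (K := K) (Γ := Γ)) P, bc_jj]
  rfl

theorem not_kr_iff (P : Place ℂ (FG Γ ℂ)) : ¬ Kr K P ↔ Gen K (FG Γ K) P := by
  rw [kr_iff, Gen]
  push Not
  rfl

theorem Kr.smul_eq {P : Place ℂ (FG Γ ℂ)} (hP : Kr K P) {σ : ℂ ≃+* ℂ} (hσ : GK K σ) :
    cA Γ σ • P = P := by
  obtain ⟨Q, rfl⟩ := (kr_iff P).1 hP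
  exact hσ.fixF.smul_bcP Q

theorem kr_of_finite {P : Place ℂ (FG Γ ℂ)}
    (h : {Q | ∃ σ : ℂ ≃+* ℂ, GK K σ ∧ cA Γ σ • P = Q}.Finite) : Kr K P := by
  have h1 : {b : ℂ | ∃ σ : ℂ ≃+* ℂ, (∀ c : K, σ (algebraMap K ℂ c) = algebraMap K ℂ c) ∧
      σ (tv Γ P) = b}.Finite := by
    refine (h.image (tv Γ)).subset ?_
    rintro b ⟨σ, hσ, rfl⟩
    exact ⟨_, ⟨σ, hσ, rfl⟩, tv_smul σ P⟩
  obtain ⟨a, ha⟩ := Curve.mem_range_of_isAlgebraic (MW.isAlgebraic_of_finite K h1)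
  exact ⟨a, ha⟩

theorem exists_conj_place [Countable K] {P Q : Place ℂ (FG Γ ℂ)} (hP : ¬ Kr K P) (hQ : ¬ Kr K Q) :
    ∃ σ : ℂ ≃+* ℂ, GK K σ ∧ cA Γ σ • P = Q := by
  rw [not_kr_iff] at hP hQ
  haveI : Countable (FG Γ K) := countable_funField K _
  obtain ⟨σ, hσ⟩ := exists_conj (evA hP).toRingHom (evA hQ).toRingHom
  have hGK : GK K σ := by
    intro c
    have h1 := hσ (algebraMap K (FG Γ K) c)
    have h2 : (evA hP).toRingHom (algebraMap K (FG Γ K) c) = algebraMap K ℂ c := (evA hP).commutes c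
    have h3 : (evA hQ).toRingHom (algebraMap K (FG Γ K) c) = algebraMap K ℂ c := (evA hQ).commutes c
    rw [h2, h3] at h1
    exact h1
  refine ⟨σ, hGK, ?_⟩
  refine hGK.fixF.smul_eq genus_fg hP hQ ?_
  intro f
  exact (hσ f).symm

/-! ### rationality of divisor classes -/

variable {P₀ : Place ℂ (FG Γ ℂ)} (hP₀ : Kr K P₀)

include hP₀ in
theorem kr_of_finite_orbit {x : Pic0 ℂ (FG Γ ℂ)}
    (h : {y | ∃ σ : ℂ ≃+* ℂ, GK K σ ∧ cA Γ σ • x = y}.Finite) :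
    ∀ P, minD P₀ x P ≠ 0 → Kr K P := by
  classical
  intro P hP
  apply kr_of_finite
  have h1 : (⋃ y ∈ {y | ∃ σ : ℂ ≃+* ℂ, GK K σ ∧ cA Γ σ • x = y},
      {Q | minD P₀ y Q ≠ 0}).Finite := by
    refine h.biUnion fun y _ => ?_
    refine (minD P₀ y).support.finite_toSet.subset fun Q hQ => ?_
    exact Finsupp.mem_support_iff.2 hQ
  refine h1.subset ?_
  rintro _ ⟨σ, hσ, rfl⟩
  simp only [Set.mem_iUnion]
  refine ⟨_, ⟨σ, hσ, rfl⟩, ?_⟩
  change minD P₀ (cA Γ σ • x) (cA Γ σ • P) ≠ 0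
  rw [minD_smul P₀ (hP₀.smul_eq hσ), SemilinearAut.divisor_smul_apply_smul]
  exact hP

include hP₀ in
theorem smul_eq_of_kr {x : Pic0 ℂ (FG Γ ℂ)} (h : ∀ P, minD P₀ x P ≠ 0 → Kr K P)
    {σ : ℂ ≃+* ℂ} (hσ : GK K σ) : cA Γ σ • x = x := by
  apply minD_injective P₀
  rw [minD_smul P₀ (hP₀.smul_eq hσ)]
  ext P
  rw [SemilinearAut.divisor_smul_apply]
  by_cases hP : minD P₀ x P = 0
  · rw [hP]
    by_contra h1
    have h2 := (h _ h1).smul_eq hσ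
    rw [smul_inv_smul] at h2
    rw [← h2] at h1
    exact h1 hP
  · have h2 := (h _ hP).smul_eq hσ
    rw [inv_smul_eq_iff.2 h2.symm]

include hP₀ in
theorem kr_of_nsmul {m : ℕ} (hm : m ≠ 0) {x y : Pic0 ℂ (FG Γ ℂ)} (hxy : m • y = x)
    (h : ∀ P, minD P₀ x P ≠ 0 → Kr K P) : ∀ P, minD P₀ y P ≠ 0 → Kr K P := by
  haveI : NeZero m := ⟨hm⟩
  apply kr_of_finite_orbit hP₀
  have h1 := finite_torsion (K := ℂ) (RingHom.id ℂ) (Γ := Γ) m
  refine (h1.image (fun t => t + y)).subset ?_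
  rintro _ ⟨σ, hσ, rfl⟩
  refine ⟨cA Γ σ • y - y, ?_, sub_add_cancel _ _⟩
  change m • (cA Γ σ • y - y) = 0
  rw [nsmul_smul_sub m _ hxy, smul_eq_of_kr hP₀ h hσ, sub_self]

end

end Fermat.Agent.TL
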