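import Fermat.Agent.TL.Sp
import Fermat.Agent.KumG.Action
import Fermat.Agent.SSH.WK

/-!
# Divisor classes are fixed by a power of any automorphism of the constants
-/

set_option autoImplicit false
set_option linter.unusedSectionVars false
set_option linter.style.haveILetI false

open scoped MatrixGroups

noncomputable section

namespace Fermat.Agent.TL

open ModularCurve Polynomial IntermediateField Fermat.Agent.ModPoly Fermat.Agent.Red AlgebraicCurve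
open Fermat.Agent.RR Fermat.Agent.Cusp Fermat.Agent.RedMod Fermat.Agent.Cov Fermat.Agent.Spec
open Fermat.Agent.SSH Fermat.Agent.Nod Fermat.Agent.KumG

local notation "Qb" => AlgebraicClosure ℚ

/-- a power of the automorphism fixes a finite extension -/
theorem exists_pow_fix_level (φ : Qb ≃ₐ[ℚ] Qb) (L : IntermediateField ℚ Qb)
    [FiniteDimensional ℚ L] : ∃ n : ℕ, n ≠ 0 ∧ ∀ a ∈ L, (φ ^ n) a = a := by
  classical
  obtain ⟨i, j, hij, h⟩ := Finite.exists_ne_map_eq_of_infinite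
    (fun n : ℕ => ((φ ^ n : Qb ≃ₐ[ℚ] Qb) : Qb →ₐ[ℚ] Qb).comp L.val)
  have key : ∀ i j : ℕ, i < j →
      ((φ ^ i : Qb ≃ₐ[ℚ] Qb) : Qb →ₐ[ℚ] Qb).comp L.val =
        ((φ ^ j : Qb ≃ₐ[ℚ] Qb) : Qb →ₐ[ℚ] Qb).comp L.val →
      ∃ n : ℕ, n ≠ 0 ∧ ∀ a ∈ L, (φ ^ n) a = a := by
    intro i j hij h
    obtain ⟨d, rfl⟩ := Nat.exists_eq_add_of_le hij.le
    refine ⟨d, by omega, fun a ha => ?_⟩
    have h1 := AlgHom.congr_fun h ⟨a, ha⟩
    have h2 : (φ ^ i) a = (φ ^ (i + d)) a := h1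
    rw [pow_add, AlgEquiv.mul_apply] at h2
    exact ((φ ^ i).injective h2).symm
  rcases lt_or_gt_of_ne hij with h' | h'
  · exact key i j h' h
  · exact key j i h' h.symm

variable {Γ : Subgroup SL(2, ℤ)} [LvlG Γ] [RatG Γ] [FunField Qb (FG Γ Qb)]

theorem coe_pow_equiv (φ : Qb ≃ₐ[ℚ] Qb) (n : ℕ) :
    ((φ ^ n : Qb ≃ₐ[ℚ] Qb) : Qb ≃+* Qb) = (φ : Qb ≃+* Qb) ^ n := by
  induction n with
  | zero => rfl
  | succ n ih =>
    rw [pow_succ, pow_succ, ← ih]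
    rfl

theorem exists_pow_fix_place (φ : Qb ≃ₐ[ℚ] Qb) (cF : CStab (FG Γ Qb)) (v : Place Qb (FG Γ Qb)) :
    ∃ n : ℕ, n ≠ 0 ∧ galF cF (φ : Qb ≃+* Qb) ^ n • v = v := by
  obtain ⟨c, hc⟩ := MW.exists_single_pole v
  obtain ⟨f, hf, hfp⟩ := hc (c + 1) (Nat.le_succ c)
  obtain ⟨L, hL, hLf⟩ := exists_level f
  obtain ⟨n, hn, hfix⟩ := exists_pow_fix_level φ L
  refine ⟨n, hn, ?_⟩
  have h1 : galF cF (φ : Qb ≃+* Qb) ^ n • f = f := by
    rw [← galF_pow, ← coe_pow_equiv]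
    apply Subtype.ext
    have h2 := congrArg (fun x : FG Γ Qb => (x : LaurentSeries Qb)) (hLf (φ ^ n) hfix)
    exact h2
  have h2 := SemilinearAut.ord_smul (galF cF (φ : Qb ≃+* Qb) ^ n) v f
  rw [h1] at h2
  have h3 : poleDiv Qb f (galF cF (φ : Qb ≃+* Qb) ^ n • v) = poleDiv Qb f v := by
    rw [poleDiv_apply, poleDiv_apply, h2]
  rw [hfp, Finsupp.single_eq_same] at h3
  by_contra hne
  rw [Finsupp.single_eq_of_ne hne] at h3
  have : ((c + 1 : ℕ) : ℤ) ≠ 0 := by positivity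
  exact this h3.symm

theorem pow_mul_fix {S X : Type*} [Group S] [MulAction S X] {s : S} {x : X} {n : ℕ}
    (h : s ^ n • x = x) (e : ℕ) : s ^ (n * e) • x = x := by
  induction e with
  | zero => rw [mul_zero, pow_zero, one_smul]
  | succ e ih => rw [Nat.mul_succ, pow_add, mul_smul, h, ih]

theorem exists_pow_fix_divisor (φ : Qb ≃ₐ[ℚ] Qb) (cF : CStab (FG Γ Qb))
    (D : Divisor Qb (FG Γ Qb)) :
    ∃ n : ℕ, n ≠ 0 ∧ galF cF (φ : Qb ≃+* Qb) ^ n • D = D := by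
  classical
  induction D using Finsupp.induction_linear with
  | zero => exact ⟨1, one_ne_zero, smul_zero _⟩
  | add D E hD hE =>
    obtain ⟨n, hn, h⟩ := hD
    obtain ⟨n', hn', h'⟩ := hE
    refine ⟨n * n', Nat.mul_ne_zero hn hn', ?_⟩
    rw [smul_add, pow_mul_fix h, mul_comm n n', pow_mul_fix h']
  | single v a =>
    obtain ⟨n, hn, h⟩ := exists_pow_fix_place φ cF v
    exact ⟨n, hn, by rw [SemilinearAut.smul_single, h]⟩

theorem exists_pow_fix (φ : Qb ≃ₐ[ℚ] Qb) (cF : CStab (FG Γ Qb)) (x : Pic0 Qb (FG Γ Qb)) :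
    ∃ n : ℕ, n ≠ 0 ∧ galF cF (φ : Qb ≃+* Qb) ^ n • x = x := by
  obtain ⟨D, rfl⟩ := Pic0.mk_surjective x
  obtain ⟨n, hn, h⟩ := exists_pow_fix_divisor φ cF (D : Divisor Qb (FG Γ Qb))
  refine ⟨n, hn, ?_⟩
  rw [SemilinearAut.pic0_smul_mk]
  congr 1
  exact Subtype.ext h

end Fermat.Agent.TL
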