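import Fermat.Agent.TL.Abs
import Fermat.Agent.TL.DivK
import Fermat.Agent.TL.Orb
import Fermat.Agent.FFG.Level
import Fermat.Agent.E2K.Cls
import Fermat.Agent.Places.Frobenius

/-!
# Lifting of Kummer classes from characteristic `q`
-/

set_option autoImplicit false
set_option linter.unusedSectionVars false
set_option linter.style.haveILetI false

open scoped MatrixGroups

noncomputable section

namespace Fermat.Agent.TL

open ModularCurve Polynomial IntermediateField Fermat.Agent.ModPoly Fermat.Agent.Red AlgebraicCurve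
open Fermat.Agent.RR Fermat.Agent.Cusp Fermat.Agent.RedMod Fermat.Agent.Cov Fermat.Agent.Spec
open Fermat.Agent.SSH Fermat.Agent.Nod Fermat.Agent.KumG Fermat.Agent.FFG LevelRed

local notation "Qb" => AlgebraicClosure ℚ

attribute [local instance] Fermat.Agent.Spec.algI Fermat.Agent.Spec.isScalarTower_algI

theorem sp_gal_pow {A K k : Type*} [CommRing A] [IsDomain A] [ValuationRing A]
    [Field K] [IsAlgClosed K] [CharZero K] [Algebra A K] [IsFractionRing A K] [Field k]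
    [IsAlgClosed k] [Algebra A k]
    {F : IntermediateField K (LaurentSeries K)} {E : IntermediateField k (LaurentSeries k)}
    [FunField K F] [FunField k E] {hk : Function.Surjective (algebraMap A k)}
    (L : LevelRed hk F E) (cF : CStab F) (cE : CStab E)
    (R : RedAut A K k) (n : ℕ) (x : Pic0 K F) :
    L.D.sp (galF cF R.σ ^ n • x) = galF cE R.σb ^ n • L.D.sp x := by
  induction n with
  | zero => rw [pow_zero, pow_zero, one_smul, one_smul]
  | succ n ih => rw [pow_succ', pow_succ', mul_smul, mul_smul, sp_gal, ih]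

section

variable {A : ValuationSubring Qb} {k : Type} [Field k] [IsAlgClosed k] [Algebra A k]
  {q : ℕ} [hq : Fact q.Prime] [CharP k q] [PerfectRing k q] {M m : ℕ} [NeZero M] [NeZero m]
  {H : Subgroup (ZMod M)ˣ} [hH : Fact ((-1 : (ZMod M)ˣ) ∈ H)]

/-- **Torsion classes lift.** -/
theorem exists_lift_pic [FunField k (FH k M H)] [FunField Qb (FG (GH M H) Qb)]
    (hA : ∃ t : A, t ≠ 0 ∧ ¬ IsUnit t)
    (hrank : ∀ a c : A, algebraMap A k a = 0 → c ≠ 0 → ∃ n : ℕ, c ∣ a ^ n)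
    {R : RedAut A Qb k} (hRb : R.σb = frobeniusEquiv k q)
    {φ : Qb ≃ₐ[ℚ] Qb} (hR : R.σ = (φ : Qb ≃+* Qb))
    (hm : (m : k) ≠ 0) (ι : Qb →+* ℂ)
    {κ : Type*} [Fintype κ] {y : κ → LaurentSeries ℤ}
    {G : GP A (FG (GH M H) Qb) (FH k M H) y} (S : SP G)
    (hg : rrGenus k (FH k M H) = rrGenus Qb (FG (GH M H) Qb))
    (z : Pic0 k (FH k M H)) (hz : m • z = 0) :
    ∃ x : Pic0 Qb (FG (GH M H) Qb), m • x = 0 ∧ (levelRed S hg).D.sp x = z := by
  haveI : Nonempty (Qb →+* ℂ) := ⟨ι⟩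
  have hm0 : m ≠ 0 := NeZero.ne m
  apply exists_lift_torsion hm0 (levelRed S hg).D.sp (levelRed S hg).D.sp_surjective _ _ _ _ z hz
  · intro n x
    letI : Algebra Qb ℂ := ι.toAlgebra
    exact divisible (Γ := GH M H) Qb (pow_ne_zero n hm0) x
  · intro n
    haveI : NeZero (m ^ n) := ⟨pow_ne_zero n hm0⟩
    exact finite_torsion ι (Γ := GH M H) (m ^ n)
  · intro n x hx hx0
    refine sp_injective S hg hA hrank (levelRed S hg) (m := m ^ n) ?_ x hx hx0
    push_cast
    exact pow_ne_zero n hm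
  · intro x
    obtain ⟨n, hn, hx⟩ := exists_pow_fix φ (FG_cstab (Γ := GH M H)) x
    refine ⟨DistribSMul.toAddMonoidHom _ (galF (FG_cstab (Γ := GH M H)) R.σ ^ n),
      DistribSMul.toAddMonoidHom _ (galF (FH_cstab (k := k) (N := M) (H := H)) R.σb ^ n), ?_, ?_, ?_⟩
    · change galF (FG_cstab (Γ := GH M H)) R.σ ^ n • x = x
      rw [hR]
      exact hx
    · intro y
      exact sp_gal_pow (levelRed S hg) _ _ R n y
    · have h1 := finite_fix_frob (E := FH k M H) jq_mem_FH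
        (FH_cstab (k := k) (N := M) (H := H)) q hn
      rw [galF_pow] at h1
      rw [hRb]
      exact h1

/-- **Kummer classes lift**: every function on the special fibre with divisor divisible by `m` is,
up to `m`-th powers, the reduction of a function with a Kummer class. -/
theorem exists_lift_class (hk : Function.Surjective (algebraMap A k)) (hA : ∃ t : A, t ≠ 0 ∧ ¬ IsUnit t)
    (hrank : ∀ a c : A, algebraMap A k a = 0 → c ≠ 0 → ∃ n : ℕ, c ∣ a ^ n)
    {R : RedAut A Qb k} (hRb : R.σb = frobeniusEquiv k q)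
    {φ : Qb ≃ₐ[ℚ] Qb} (hR : R.σ = (φ : Qb ≃+* Qb)) (hM : (M : k) ≠ 0)
    (hm : (m : k) ≠ 0) (hM3 : 3 ≤ M)
    (ι : Qb →+* ℂ) (α : FH k M H) (hα : α ≠ 0)
    (hdiv : ∀ v : Place k (FH k M H), (m : ℤ) ∣ v.ord α) :
    ∃ (η : XL (GH M H) m) (a : FG (GH M H) Qb) (α' β : FH k M H),
      E2K.HasCls ι m a η ∧ LR A (a : LaurentSeries Qb) (α' : LaurentSeries k) ∧
      α' ≠ 0 ∧ β ≠ 0 ∧ α = α' * β ^ m := by
  haveI : Nonempty (Qb →+* ℂ) := ⟨ι⟩
  have hm0 : m ≠ 0 := NeZero.ne m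
  haveI := funField_FH (k := k) (H := H) hM hM3 hH.out
  haveI ff : FunField Qb (FG (GH M H) Qb) := funField_FG
  obtain ⟨G, S, hg⟩ := exists_GPSP (A := A) (k := k) (E := FG (GH M H) Qb)
    hk hM hM3 hH.out (FG_eq_FH (H := H) ι hM3 hH.out)
  have hDM : DM k m α := ⟨hα, hdiv⟩
  obtain ⟨x, hx, hxz⟩ := exists_lift_pic (m := m) hA hrank hRb hR hm ι S hg (clm hDM)
    (nsmul_clm hDM)
  set L := levelRed S hg with hL
  obtain ⟨y, hy⟩ : ∃ y, tb (GH M H) • y = x := by
    letI : Algebra Qb ℂ := ι.toAlgebra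
    exact divisible (Γ := GH M H) Qb (NeZero.ne (tb (GH M H))) x
  haveI : NeZero (m * tb (GH M H)) := ⟨Nat.mul_ne_zero hm0 (NeZero.ne _)⟩
  obtain ⟨D, f, rfl, hf, hfD⟩ := exists_fun_of_torsion (m := m * tb (GH M H)) (x := y) (by
    rw [mul_smul, hy, hx])
  have hgood : Good m f := hf
  obtain ⟨a, ha, hW, hπ⟩ := exists_scaled L.M G.hk hf.1
  -- the divisor of the reduction
  have h1 : divisor k (L.M.π ⟨a • f, hW⟩) =
      m • L.D.r (tb (GH M H) • (D : Divisor Qb (FG (GH M H) Qb))) := by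
    rw [← L.D.r_divisor hW hπ, divisor_smul ha, ← hfD, mul_smul, map_nsmul]
  have h2 : (L.D.r (tb (GH M H) • (D : Divisor Qb (FG (GH M H) Qb))) -
      divm (K := k) m α).IsPrincipal := by
    rw [← hy, nsmul_mk, L.D.sp_mk, ← sub_eq_zero] at hxz
    exact pic0_mk_eq_zero.1 hxz
  obtain ⟨h, hh, hhD⟩ := isPrincipal_iff.1 h2
  have h3 : divisor k α = divisor k (L.M.π ⟨a • f, hW⟩ * (h⁻¹) ^ m) := by
    rw [divisor_mul hπ (pow_ne_zero _ (inv_ne_zero hh)), divisor_pow, h1]
    have e1 : divisor k h⁻¹ = -divisor k h := by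
      ext v
      rw [Finsupp.neg_apply, divisor_apply, divisor_apply, v.ord_inv]
    have e2 : divisor k α = m • divm (K := k) m α := by
      ext v
      rw [Finsupp.smul_apply, nsmul_eq_mul, hDM.mul_divm, divisor_apply]
    rw [e1, e2, ← smul_add, ← hhD]
    congr 1
    abel
  obtain ⟨c, hc, hcm⟩ := exists_const_mul hα
    (mul_ne_zero hπ (pow_ne_zero m (inv_ne_zero hh))) h3
  obtain ⟨c', hc'⟩ := IsAlgClosed.exists_pow_nat_eq c (Nat.pos_of_ne_zero hm0)
  have hc'0 : c' ≠ 0 := by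
    rintro rfl
    rw [zero_pow hm0] at hc'
    exact hc hc'.symm
  refine ⟨cls ι m f, a • f, L.M.π ⟨a • f, hW⟩, algebraMap k (FH k M H) c' * h⁻¹, ?_, ?_, hπ,
    mul_ne_zero (by simpa using hc'0) (inv_ne_zero hh), ?_⟩
  · have h4 := (E2K.hasCls_of_good ι hgood).mul_const ha
    rw [Algebra.smul_def, mul_comm]
    exact h4
  · exact ⟨(L.mem_W _).1 hW, (L.coe_π _ hW).symm⟩
  · rw [mul_pow, ← map_pow, hc', hcm]
    ring

end

end Fermat.Agent.TL
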