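import Fermat.Agent.Cov.Fibre
import Fermat.Agent.Spec.TorsInj
import Fermat.Agent.SSH.Gal
import Fermat.Agent.Nod.Qbar
import Fermat.Agent.TL.Fix
import Fermat.Agent.Cusp.Cusps

/-!
# Specialization for pairs of fields of Laurent series
-/

set_option autoImplicit false
set_option linter.unusedSectionVars false
set_option linter.style.haveILetI false

noncomputable section

namespace Fermat.Agent.TL

open ModularCurve Polynomial IntermediateField Fermat.Agent.ModPoly Fermat.Agent.Red AlgebraicCurve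
open Fermat.Agent.RR Fermat.Agent.Cusp Fermat.Agent.RedMod Fermat.Agent.Cov Fermat.Agent.Spec
open Fermat.Agent.SSH Fermat.Agent.Nod LevelRed

attribute [local instance] Fermat.Agent.Spec.algI Fermat.Agent.Spec.isScalarTower_algI

section gen

variable {A K k : Type*} [CommRing A] [IsDomain A] [ValuationRing A]
  [Field K] [IsAlgClosed K] [CharZero K] [Algebra A K] [IsFractionRing A K] [Field k]
  [IsAlgClosed k] [Algebra A k]
  {F : IntermediateField K (LaurentSeries K)} {E : IntermediateField k (LaurentSeries k)}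
  {ι : Type*} [Fintype ι] {y : ι → LaurentSeries ℤ} {G : GP A F E y}
  [FunField K F] [FunField k E]

/-- the reduction attached to an integral basis -/
def levelRed (S : SP G) (hg : rrGenus k E = rrGenus K F) : LevelRed G.hk F E :=
  have H := fibreHypG S
  have H' : FibreHyp (gaussG G) (poleDiv K (⟨jqModC K, G.jK⟩ : F))
      (zeroDiv K (⟨jqModC K, G.jK⟩ : F))
      (poleDiv k (⟨jqModC k, G.jk⟩ : E)) (zeroDiv k (⟨jqModC k, G.jk⟩ : E)) (Fintype.card ι)
      (rrGenus K F) (rrGenus K F) := by rw [hg] at H; exact H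
  { M := H'.M
    mem_W := fun x => Iff.rfl
    coe_π := fun x hx => rfl
    D := FibreHyp.divRed H' }

/-- **Injectivity of specialization on torsion.** -/
theorem sp_injective (S : SP G) (hg : rrGenus k E = rrGenus K F)
    (hA : ∃ t : A, t ≠ 0 ∧ ¬ IsUnit t)
    (hrank : ∀ a c : A, algebraMap A k a = 0 → c ≠ 0 → ∃ n : ℕ, c ∣ a ^ n)
    (L : LevelRed G.hk F E)
    {m : ℕ} (hm : (m : k) ≠ 0) (x : Pic0 K F) (hx : m • x = 0) (h0 : L.D.sp x = 0) : x = 0 := by
  have hm0 : m ≠ 0 := by rintro rfl; simp at hm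
  obtain ⟨D, rfl⟩ := Pic0.mk_surjective x
  rw [nsmul_mk, pic0_mk_eq_zero] at hx
  obtain ⟨f, hf, hfD⟩ := isPrincipal_iff.1 hx
  have hfD' : m • (D : Divisor K F) = divisor K f := hfD
  obtain ⟨a, ha, hW, hπ⟩ := exists_scaled L.M G.hk hf
  obtain ⟨h, hh, hhD⟩ := isPrincipal_iff.1 (L.D.sp_mk_eq_zero.1 h0)
  have h1 : divisor k (L.M.π ⟨a • f, hW⟩) = divisor k (h ^ m) := by
    rw [← L.D.r_divisor hW hπ, divisor_smul ha, ← hfD', map_nsmul, hhD, divisor_pow]
  obtain ⟨c, hc, hcm⟩ := exists_const_mul hπ (pow_ne_zero m hh) h1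
  obtain ⟨c', hc'⟩ := IsAlgClosed.exists_pow_nat_eq c (Nat.pos_of_ne_zero hm0)
  have hc'0 : c' ≠ 0 := by
    rintro rfl
    rw [zero_pow hm0] at hc'
    exact hc hc'.symm
  have hγ : L.M.π ⟨a • f, hW⟩ = (algebraMap k E c' * h) ^ m := by
    rw [mul_pow, ← map_pow, hc', hcm]
  have hDv : ∀ v : Place K F, (m : ℤ) * (D : Divisor K F) v = v.ord (a • f) := by
    intro v
    have h2 := congrArg (fun E : Divisor K F => E v) (divisor_smul ha f)
    simp only [divisor_apply] at h2
    rw [h2]
    have h3 := congrArg (fun E : Divisor K F => E v) hfD'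
    simp only [divisor_apply, Finsupp.smul_apply, nsmul_eq_mul] at h3
    exact h3
  obtain ⟨y, hy⟩ := S.rigidity hg hA hrank hm (f := a • f) ((L.mem_W _).1 hW)
    (γ := algebraMap k E c' * h) (mul_ne_zero (by simpa using hc'0) hh) (by
      rw [← L.coe_π _ hW, hγ]
      rfl) (fun v => ⟨_, (hDv v).symm⟩)
  rw [pic0_mk_eq_zero, isPrincipal_iff]
  have hy0 : y ≠ 0 := by
    rintro rfl
    rw [zero_pow hm0] at hy
    have h5 : a • f ≠ 0 := by
      rw [Algebra.smul_def]
      exact mul_ne_zero (by simpa using ha) hf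
    exact h5 hy.symm
  refine ⟨y, hy0, ?_⟩
  ext v
  have h4 := hDv v
  rw [← hy, Fermat.Agent.Curve.ord_pow] at h4
  rw [divisor_apply]
  exact mul_left_cancel₀ (by exact_mod_cast hm0) h4

theorem rd_gal (R : RedAut A K k) (x : LaurentSeries K) (y : LaurentSeries k) (h : Rd A x y) :
    Rd A (coeffMap (R.σ : K →+* K) x) (coeffMap (R.σb : k →+* k) y) := by
  obtain ⟨h1, rfl⟩ := h
  exact act_red R h1

/-- specialization commutes with coefficientwise automorphisms -/
theorem sp_gal {hk : Function.Surjective (algebraMap A k)} (L : LevelRed hk F E) (cF : CStab F) (cE : CStab E) (R : RedAut A K k)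
    (x : Pic0 K F) : L.D.sp (galF cF R.σ • x) = galF cE R.σb • L.D.sp x :=
  L.sp_smul (rd_gal R) (galF cF R.σ) (galF cE R.σb) (fun _ => rfl) (fun _ => rfl) x

end gen

section infinity

variable {k : Type*} [Field k] [IsAlgClosed k] {E : IntermediateField k (LaurentSeries k)}
  [FunField k E]

theorem order_coeffMap_equiv (σ : k ≃+* k) (x : LaurentSeries k) :
    (coeffMap (σ : k →+* k) x).order = x.order := by
  rcases eq_or_ne x 0 with rfl | hx
  · rw [map_zero]
  · have h0 : ∀ i, (coeffMap (σ : k →+* k) x).coeff i = 0 ↔ x.coeff i = 0 := by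
      intro i
      rw [coeffMap_coeff]
      exact map_eq_zero_iff _ (RingHom.injective _)
    have hx' : coeffMap (σ : k →+* k) x ≠ 0 := fun h => hx (by
      ext i
      have := congrArg (fun s => HahnSeries.coeff s i) h
      simp only [HahnSeries.coeff_zero] at this
      exact (h0 i).1 this)
    apply le_antisymm
    · exact HahnSeries.order_le_of_coeff_ne_zero (fun h =>
        HahnSeries.coeff_order_eq_zero.not.2 hx ((h0 _).1 h))
    · exact HahnSeries.order_le_of_coeff_ne_zero (fun h =>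
        HahnSeries.coeff_order_eq_zero.not.2 hx' ((h0 _).2 h))

theorem place_ext' {v w : Place k E} (h : ∀ x, v.ord x = w.ord x) : v = w := by
  apply Place.ext
  ext x
  constructor
  · intro hx
    apply Ge.mem
    rcases Ge.of_mem hx with h0 | h0
    · exact Or.inl h0
    · exact Or.inr (by rw [← h]; exact h0)
  · intro hx
    apply Ge.mem
    rcases Ge.of_mem hx with h0 | h0
    · exact Or.inl h0
    · exact Or.inr (by rw [h]; exact h0)

/-- the place at infinity is fixed -/
theorem exists_inf_place (hj : jqModC k ∈ E) (cE : CStab E) :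
    ∃ P₀ : Place k E, ∀ σ : k ≃+* k, galF cE σ • P₀ = P₀ := by
  obtain ⟨v, hv⟩ := Cusp.exists_place_of_order E.val
    ⟨⟨jqModC k, hj⟩, (by rw [← Jc_one_one]; exact order_Jc 1 1 : (jqModC k).order = -1)⟩
  refine ⟨v, fun σ => place_ext' fun x => ?_⟩
  have h1 := SemilinearAut.ord_smul (galF cE σ) v ((galF cE σ)⁻¹ • x)
  rw [smul_inv_smul] at h1
  rw [h1, hv, hv]
  have h2 := order_coeffMap_equiv σ (((galF cE σ)⁻¹ • x : E) : LaurentSeries k)
  have h3 : coeffMap (σ : k →+* k) (((galF cE σ)⁻¹ • x : E) : LaurentSeries k) =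
      ((galF cE σ • ((galF cE σ)⁻¹ • x) : E) : LaurentSeries k) := rfl
  rw [h3, smul_inv_smul] at h2
  exact h2.symm

theorem galF_pow (cE : CStab E) (σ : k ≃+* k) (n : ℕ) : galF cE (σ ^ n) = galF cE σ ^ n := by
  induction n with
  | zero => rw [pow_zero, pow_zero, galF_one]
  | succ n ih => rw [pow_succ, pow_succ, galF_mul, ih]

theorem frob_pow_apply (q : ℕ) [Fact q.Prime] [CharP k q] [PerfectRing k q] (n : ℕ) (c : k) :
    (frobeniusEquiv k q ^ n) c = c ^ q ^ n := by
  induction n generalizing c with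
  | zero => rw [pow_zero, pow_zero, pow_one]; rfl
  | succ n ih =>
    rw [pow_succ, RingAut.mul_apply, ih, frobeniusEquiv_apply, frobenius_def, ← pow_mul,
      ← pow_succ']

theorem finite_frob_fix (q : ℕ) [hq : Fact q.Prime] [CharP k q] [PerfectRing k q] {n : ℕ}
    (hn : n ≠ 0) : {c : k | (frobeniusEquiv k q ^ n) c = c}.Finite := by
  classical
  have h1 : 1 < q ^ n := Nat.one_lt_pow hn hq.out.one_lt
  have h0 : (X ^ (q ^ n) - X : k[X]) ≠ 0 := FiniteField.X_pow_card_sub_X_ne_zero k h1
  refine ((X ^ (q ^ n) - X : k[X]).roots.toFinset.finite_toSet).subset ?_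
  intro c hc
  have hc' : (frobeniusEquiv k q ^ n) c = c := hc
  rw [frob_pow_apply] at hc'
  rw [Finset.mem_coe, Multiset.mem_toFinset, mem_roots h0, IsRoot.def, eval_sub, eval_pow, eval_X,
    hc', sub_self]

/-- **finiteness of the classes fixed by a power of Frobenius** -/
theorem finite_fix_frob (hj : jqModC k ∈ E) (cE : CStab E) (q : ℕ) [hq : Fact q.Prime] [CharP k q]
    [PerfectRing k q] {n : ℕ} (hn : n ≠ 0) :
    {b : Pic0 k E | galF cE (frobeniusEquiv k q ^ n) • b = b}.Finite := by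
  obtain ⟨P₀, hP₀⟩ := exists_inf_place hj cE
  refine finite_fix_pic (galF cE (frobeniusEquiv k q ^ n)) (t := ⟨jqModC k, hj⟩)
    (transcendental_of E hj) ?_ ?_ (hP₀ _)
  · apply Subtype.ext
    change coeffMap _ (jqModC k) = jqModC k
    rw [coeffMap_jqModC]
  · intro i hi
    rw [baseAut_galF, ← pow_mul]
    exact finite_frob_fix q (Nat.mul_ne_zero hn hi)

end infinity

end Fermat.Agent.TL
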